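import Fermat.Agent.S18.H138.Charts

/-!
# The level-`4` Hauptmodul in a chart (helper994, S36 cell REG, `q` odd)

Mirror of helper890's `Chart9.lean` (level `9`, `q = 2`) for the Hauptmodul `t₄` of `Γ₀(4)`
(helper878 `Haupt4.lean`).  Mathlib + `S18.H138.chart` only.  `F` a field, `R → F`,
`B = chart R S`, `j, t ∈ F` with the relation of `H878.jq_mul_t4`:

  `j · (t⁴ (t + 16)) = (t² + 256 t + 4096)³`.

* `mem_chart_of_rel4`   : `j ∈ B ⟹ t ∈ B`  (`t` is integral over `ℤ[j]`, degree `6`);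
* `inv_mem_of_rel4`     : `j, t, 2⁻¹ ∈ A ⟹ t⁻¹ ∈ A`         (`t ∣ 2³⁶` in `ℤ[j, t]`);
* `add_inv_mem_of_rel4` : `j, t, 2⁻¹ ∈ A ⟹ (t + 16)⁻¹ ∈ A`  (`t + 16 ∣ 2²⁴` in `ℤ[j, t]`);
* `g4_mem_of_rel4`, `g4_inv_mem_of_rel4`, `g4_pow_*` : `g₄ = t² (t + 16)⁵` (`= (θ t₄)⁶ / Δ`,
  helper878 `Theta4.theta_t4`) and its inverse lie in `A`: `g₄` is a unit of every chart on which
  `2` is invertible, in particular in every odd residue characteristic.
-/

set_option autoImplicit false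
set_option linter.unusedSectionVars false

noncomputable section

namespace Fermat.Agent.S36.H994

open Polynomial Fermat.Agent.S18.H138

section Chart

variable {R F : Type*} [CommRing R] [Field F] [Algebra R F]

/-- The chart is integrally closed in `F`. -/
theorem h4_mem_chart_of_isIntegral (S : Set F) {y : F}
    (h : IsIntegral (integralClosure (Algebra.adjoin R S) F) y) : y ∈ chart R S := by
  rw [mem_chart]
  exact isIntegral_trans y h

/-- The monic polynomial `(T² + 256 T + 4096)³ - c T⁴ (T + 16)` of degree `6`. -/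
def poly4 {A : Type*} [CommRing A] (c : A) : Polynomial A :=
  (X ^ 2 + C 256 * X + C 4096) ^ 3 - C c * (X ^ 4 * (X + C 16))

theorem poly4_monic {A : Type*} [CommRing A] [Nontrivial A] (c : A) : (poly4 c).Monic := by
  rw [poly4]
  monicity!

theorem eval₂_poly4 {A B : Type*} [CommRing A] [CommRing B] (f : A →+* B) (c : A) (t : B) :
    (poly4 c).eval₂ f t = (t ^ 2 + 256 * t + 4096) ^ 3 - f c * (t ^ 4 * (t + 16)) := by
  simp only [poly4, eval₂_sub, eval₂_mul, eval₂_pow, eval₂_add, eval₂_X, eval₂_C]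
  simp only [map_ofNat]

/-- `t` is integral over `ℤ[j]`: `j ∈ B ⟹ t ∈ B`. -/
theorem mem_chart_of_rel4 (S : Set F) {j t : F} (hj : j ∈ chart R S)
    (hrel : j * (t ^ 4 * (t + 16)) = (t ^ 2 + 256 * t + 4096) ^ 3) : t ∈ chart R S := by
  apply h4_mem_chart_of_isIntegral
  refine ⟨poly4 (⟨j, hj⟩ : integralClosure (Algebra.adjoin R S) F), poly4_monic _, ?_⟩
  rw [eval₂_poly4]
  show (t ^ 2 + 256 * t + 4096) ^ 3 - j * (t ^ 4 * (t + 16)) = 0
  rw [hrel, sub_self]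

end Chart

/-! ## Units: generic subring form -/

section Units

variable {F : Type*} [Field F]

/-- `t ∣ 2³⁶` in `ℤ[j, t]`. -/
theorem mul_cofactor_of_rel4 {j t : F}
    (hrel : j * (t ^ 4 * (t + 16)) = (t ^ 2 + 256 * t + 4096) ^ 3) :
    t * (j * (t ^ 3 * (t + 16))
      - (t ^ 5 + 768 * t ^ 4 + 208896 * t ^ 3 + 23068672 * t ^ 2
        + 855638016 * t + 12884901888)) = 2 ^ 36 := by
  linear_combination hrel

/-- `t + 16 ∣ 2²⁴` in `ℤ[j, t]`. -/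
theorem add_mul_cofactor_of_rel4 {j t : F}
    (hrel : j * (t ^ 4 * (t + 16)) = (t ^ 2 + 256 * t + 4096) ^ 3) :
    (t + 16) * (j * t ^ 4
      - ((t + 16) ^ 5 + 672 * (t + 16) ^ 4 + 151296 * (t + 16) ^ 3
        + 11583488 * (t + 16) ^ 2 + 38731776 * (t + 16) + 44040192)) = 2 ^ 24 := by
  linear_combination hrel

variable [CharZero F]

theorem h4_two_pow_ne_zero (n : ℕ) : (2 : F) ^ n ≠ 0 := pow_ne_zero n (by norm_num)

/-- `t ≠ 0`. -/
theorem ne_zero_of_rel4 {j t : F}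
    (hrel : j * (t ^ 4 * (t + 16)) = (t ^ 2 + 256 * t + 4096) ^ 3) : t ≠ 0 := by
  have hc := mul_cofactor_of_rel4 hrel
  rintro rfl
  rw [zero_mul] at hc
  exact h4_two_pow_ne_zero (F := F) 36 hc.symm

/-- `t + 16 ≠ 0`. -/
theorem add_ne_zero_of_rel4 {j t : F}
    (hrel : j * (t ^ 4 * (t + 16)) = (t ^ 2 + 256 * t + 4096) ^ 3) : t + 16 ≠ 0 := by
  have hc := add_mul_cofactor_of_rel4 hrel
  intro h
  rw [h, zero_mul] at hc
  exact h4_two_pow_ne_zero (F := F) 24 hc.symm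

/-- `t⁻¹ ∈ A` for every subring `A ∋ j, t, 2⁻¹`. -/
theorem inv_mem_of_rel4 {A : Type*} [SetLike A F] [SubringClass A F] (B : A) {j t : F}
    (hj : j ∈ B) (ht : t ∈ B) (h2 : (2 : F)⁻¹ ∈ B)
    (hrel : j * (t ^ 4 * (t + 16)) = (t ^ 2 + 256 * t + 4096) ^ 3) : t⁻¹ ∈ B := by
  have hc := mul_cofactor_of_rel4 hrel
  have h36 : (2 : F) ^ 36 ≠ 0 := h4_two_pow_ne_zero 36
  have ht0 : t ≠ 0 := ne_zero_of_rel4 hrel
  have e : t⁻¹ = (j * (t ^ 3 * (t + 16))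
      - (t ^ 5 + 768 * t ^ 4 + 208896 * t ^ 3 + 23068672 * t ^ 2
        + 855638016 * t + 12884901888)) * (2 : F)⁻¹ ^ 36 := by
    rw [inv_pow, eq_mul_inv_iff_mul_eq₀ h36, ← hc, ← mul_assoc, inv_mul_cancel₀ ht0, one_mul]
  rw [e]
  have hn : ∀ n : ℕ, (n : F) ∈ B := fun n => natCast_mem B n
  have h16 : t + 16 ∈ B := add_mem ht (by exact_mod_cast hn 16)
  refine mul_mem (sub_mem (mul_mem hj (mul_mem (pow_mem ht 3) h16)) ?_) (pow_mem h2 36)
  refine add_mem (add_mem (add_mem (add_mem (add_mem (pow_mem ht 5) ?_) ?_) ?_) ?_) ?_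
  · exact mul_mem (by exact_mod_cast hn 768) (pow_mem ht 4)
  · exact mul_mem (by exact_mod_cast hn 208896) (pow_mem ht 3)
  · exact mul_mem (by exact_mod_cast hn 23068672) (pow_mem ht 2)
  · exact mul_mem (by exact_mod_cast hn 855638016) ht
  · exact_mod_cast hn 12884901888

/-- `(t + 16)⁻¹ ∈ A` for every subring `A ∋ j, t, 2⁻¹`. -/
theorem add_inv_mem_of_rel4 {A : Type*} [SetLike A F] [SubringClass A F] (B : A) {j t : F}
    (hj : j ∈ B) (ht : t ∈ B) (h2 : (2 : F)⁻¹ ∈ B)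
    (hrel : j * (t ^ 4 * (t + 16)) = (t ^ 2 + 256 * t + 4096) ^ 3) : (t + 16)⁻¹ ∈ B := by
  have hc := add_mul_cofactor_of_rel4 hrel
  have h24 : (2 : F) ^ 24 ≠ 0 := h4_two_pow_ne_zero 24
  have hs0 : t + 16 ≠ 0 := add_ne_zero_of_rel4 hrel
  have e : (t + 16)⁻¹ = (j * t ^ 4
      - ((t + 16) ^ 5 + 672 * (t + 16) ^ 4 + 151296 * (t + 16) ^ 3
        + 11583488 * (t + 16) ^ 2 + 38731776 * (t + 16) + 44040192)) * (2 : F)⁻¹ ^ 24 := by
    rw [inv_pow, eq_mul_inv_iff_mul_eq₀ h24, ← hc, ← mul_assoc, inv_mul_cancel₀ hs0, one_mul]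
  rw [e]
  have hn : ∀ n : ℕ, (n : F) ∈ B := fun n => natCast_mem B n
  have h16 : t + 16 ∈ B := add_mem ht (by exact_mod_cast hn 16)
  refine mul_mem (sub_mem (mul_mem hj (pow_mem ht 4)) ?_) (pow_mem h2 24)
  refine add_mem (add_mem (add_mem (add_mem (add_mem (pow_mem h16 5) ?_) ?_) ?_) ?_) ?_
  · exact mul_mem (by exact_mod_cast hn 672) (pow_mem h16 4)
  · exact mul_mem (by exact_mod_cast hn 151296) (pow_mem h16 3)
  · exact mul_mem (by exact_mod_cast hn 11583488) (pow_mem h16 2)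
  · exact mul_mem (by exact_mod_cast hn 38731776) h16
  · exact_mod_cast hn 44040192

/-- `g₄ = t² (t + 16)⁵ ∈ A`. -/
theorem g4_mem_of_mem {A : Type*} [SetLike A F] [SubringClass A F] (B : A) {t : F}
    (ht : t ∈ B) : t ^ 2 * (t + 16) ^ 5 ∈ B := by
  have hn : ∀ n : ℕ, (n : F) ∈ B := fun n => natCast_mem B n
  have h16 : t + 16 ∈ B := add_mem ht (by exact_mod_cast hn 16)
  exact mul_mem (pow_mem ht 2) (pow_mem h16 5)

/-- `g₄⁻¹ = (t⁻¹)² ((t + 16)⁻¹)⁵ ∈ A`. -/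
theorem g4_inv_mem_of_rel4 {A : Type*} [SetLike A F] [SubringClass A F] (B : A) {j t : F}
    (hj : j ∈ B) (ht : t ∈ B) (h2 : (2 : F)⁻¹ ∈ B)
    (hrel : j * (t ^ 4 * (t + 16)) = (t ^ 2 + 256 * t + 4096) ^ 3) :
    (t ^ 2 * (t + 16) ^ 5)⁻¹ ∈ B := by
  rw [mul_inv, ← inv_pow, ← inv_pow]
  exact mul_mem (pow_mem (inv_mem_of_rel4 B hj ht h2 hrel) 2)
    (pow_mem (add_inv_mem_of_rel4 B hj ht h2 hrel) 5)

/-- `(g₄ ^ k)⁻¹ ∈ A`. -/
theorem g4_pow_inv_mem_of_rel4 {A : Type*} [SetLike A F] [SubringClass A F] (B : A) {j t : F}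
    (hj : j ∈ B) (ht : t ∈ B) (h2 : (2 : F)⁻¹ ∈ B)
    (hrel : j * (t ^ 4 * (t + 16)) = (t ^ 2 + 256 * t + 4096) ^ 3) (k : ℕ) :
    ((t ^ 2 * (t + 16) ^ 5) ^ k)⁻¹ ∈ B := by
  rw [← inv_pow]
  exact pow_mem (g4_inv_mem_of_rel4 B hj ht h2 hrel) k

/-- `g₄ ≠ 0`. -/
theorem g4_ne_zero_of_rel4 {j t : F}
    (hrel : j * (t ^ 4 * (t + 16)) = (t ^ 2 + 256 * t + 4096) ^ 3) :
    t ^ 2 * (t + 16) ^ 5 ≠ 0 :=
  mul_ne_zero (pow_ne_zero 2 (ne_zero_of_rel4 hrel)) (pow_ne_zero 5 (add_ne_zero_of_rel4 hrel))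

end Units

/-! ## Valuation form: `t`, `t + 16` are units of every valuation ring containing `j`, `2⁻¹`
in which `t` is integral -/

section Val

variable {F : Type*} [Field F] [CharZero F]

/-- In a valuation subring `V ∋ j, 2⁻¹`, the relation forces `t ∈ V` (integrality). -/
theorem mem_valuationSubring_of_rel4 (V : ValuationSubring F) {j t : F} (hj : j ∈ V)
    (hrel : j * (t ^ 4 * (t + 16)) = (t ^ 2 + 256 * t + 4096) ^ 3) : t ∈ V := by
  have hint : IsIntegral V t := by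
    refine ⟨poly4 (⟨j, hj⟩ : V), poly4_monic _, ?_⟩
    rw [eval₂_poly4]
    show (t ^ 2 + 256 * t + 4096) ^ 3 - j * (t ^ 4 * (t + 16)) = 0
    rw [hrel, sub_self]
  obtain ⟨v, hv⟩ := (IsIntegrallyClosed.isIntegral_iff (R := V) (K := F)).mp hint
  rw [← hv]
  exact v.2

/-- `v(t) = 1` in every valuation subring `V ∋ j, 2⁻¹`. -/
theorem valuation_eq_one_of_rel4 (V : ValuationSubring F) {j t : F} (hj : j ∈ V)
    (h2 : (2 : F)⁻¹ ∈ V)
    (hrel : j * (t ^ 4 * (t + 16)) = (t ^ 2 + 256 * t + 4096) ^ 3) : V.valuation t = 1 := by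
  have ht := mem_valuationSubring_of_rel4 V hj hrel
  have hti := inv_mem_of_rel4 V hj ht h2 hrel
  have ht0 := ne_zero_of_rel4 hrel
  refine le_antisymm ((V.valuation_le_one_iff _).2 ht) ?_
  have h1 : V.valuation t⁻¹ ≤ 1 := (V.valuation_le_one_iff _).2 hti
  rw [map_inv₀] at h1
  exact (inv_le_one₀ (by rw [zero_lt_iff]; exact (_root_.map_ne_zero _).2 ht0)).1 h1

/-- `v(t + 16) = 1` in every valuation subring `V ∋ j, 2⁻¹`. -/
theorem valuation_add_eq_one_of_rel4 (V : ValuationSubring F) {j t : F} (hj : j ∈ V)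
    (h2 : (2 : F)⁻¹ ∈ V)
    (hrel : j * (t ^ 4 * (t + 16)) = (t ^ 2 + 256 * t + 4096) ^ 3) :
    V.valuation (t + 16) = 1 := by
  have ht := mem_valuationSubring_of_rel4 V hj hrel
  have hti := add_inv_mem_of_rel4 V hj ht h2 hrel
  have ht0 := add_ne_zero_of_rel4 hrel
  have h16 : t + 16 ∈ V := add_mem ht (ofNat_mem V 16)
  refine le_antisymm ((V.valuation_le_one_iff _).2 h16) ?_
  have h1 : V.valuation (t + 16)⁻¹ ≤ 1 := (V.valuation_le_one_iff _).2 hti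
  rw [map_inv₀] at h1
  exact (inv_le_one₀ (by rw [zero_lt_iff]; exact (_root_.map_ne_zero _).2 ht0)).1 h1

end Val

end Fermat.Agent.S36.H994
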