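import Fermat.Agent.S36.H878.Haupt4

/-!
# Gauss units of level `4` (helper994, S36 cell REG, `q` odd)

Mirror of helper890's `Gauss9.lean` for the level-`4` tower of helper878's `Haupt4.lean`.
Every function below is `t⁻ⁿ · P(t)` with `P ∈ ℤ⟦t⟧`, `P(0) = 1`, over EVERY commutative ring `K`;
so its `t`-expansion is integral with a coefficient `1`, and it is a unit of the Gauss valuation
ring `V∞` of every level and every residue characteristic (`A2.Mod.H553.mem_of_int`,
`inv_mem_of_int`).  These are the unit hypotheses of helper878's `Congr4.t4_congr`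
(`hU`, `hUe`, `h16`) and `Transfer4.hres_transfer4` (`hh₁`, `hh₁'`, `hj₁`, `hj₁'`):

| function | `n` | statement |
|---|---|---|
| `t₄` | `1` | `H878.t4` (definition), `H878.coeff_t4_neg_one` |
| `t₄ + 16` | `1` | `H878.coeff_t4_add_neg_one` |
| `t₂ + 16` | `1` | `H878.coeff_t2_add_neg_one` |
| `U₂(j, j₂)` | `3` | `u2_eq`, `coeff_u2` |
| `U₂(j₂, j₄)` | `6` | `u2e_eq`, `coeff_u2e` |
| `j`, `j - 1728` | `1` | `jq4_add_eq`, `coeff_jq4_sub_1728` |

and the relations `l1`, `l2`, `l3` of `Congr4.t4_congr` over every field (`t2_lin4`, `t2e_lin4`,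
`t4_lin4`).
-/

set_option autoImplicit false
set_option linter.unusedSectionVars false

noncomputable section

namespace Fermat.Agent.S36.H994

open PowerSeries ModularCurve Fermat.Agent.Lib.Haupt Fermat.Agent.S36.H878

/-! ## Polynomials -/

/-- `U₂ ∈ ℤ[x, y]` (`= Lib.Haupt.U2` at `x = j`, `y = j₂`; the shape of `Congr4.t4_congr`). -/
def h4u2 {S : Type*} [CommRing S] (x y : S) : S :=
  x * y - 720 * x - 720 * y - 16250625

/-- `W₂ ∈ ℤ[x, y]` (`= Lib.Haupt.W2` at `x = j`, `y = j₂`; the shape of `Congr4.t4_congr`). -/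
def h4w2 {S : Type*} [CommRing S] (x y : S) : S :=
  y ^ 2 + 4095 * x + 195120 * y + 660960000

theorem h4u2_def {S : Type*} [CommRing S] (x y : S) :
    h4u2 x y = x * y - 720 * x - 720 * y - 16250625 := rfl

theorem h4w2_def {S : Type*} [CommRing S] (x y : S) :
    h4w2 x y = y ^ 2 + 4095 * x + 195120 * y + 660960000 := rfl

theorem map_h4u2 {S T : Type*} [CommRing S] [CommRing T] (f : S →+* T) (x y : S) :
    f (h4u2 x y) = h4u2 (f x) (f y) := by
  simp only [h4u2, map_sub, map_mul, map_ofNat]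

theorem map_h4w2 {S T : Type*} [CommRing S] [CommRing T] (f : S →+* T) (x y : S) :
    f (h4w2 x y) = h4w2 (f x) (f y) := by
  simp only [h4w2, map_add, map_mul, map_pow, map_ofNat]

/-! ## Shifts -/

section Shift

variable (K : Type*) [CommRing K]

/-- `t⁻ⁿ · tᵏ = t^{-(n-k)}`. -/
theorem h4_qinv_pow_mul_X_pow {n k : ℕ} (h : k ≤ n) :
    qinv K ^ n * lau K X ^ k = qinv K ^ (n - k) := by
  obtain ⟨m, rfl⟩ := Nat.exists_eq_add_of_le h
  rw [Nat.add_sub_cancel_left, pow_add, mul_right_comm, ← mul_pow, qinv_mul_lau_X, one_pow,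
    one_mul]

/-- The coefficient of `t⁻ⁿ` in `t⁻ⁿ · P` is `P(0)`. -/
theorem h4_coeff_qinv_pow_mul_lau (n : ℕ) (P : PowerSeries ℤ) :
    (qinv K ^ n * lau K P).coeff (-(n : ℤ)) = ((constantCoeff P : ℤ) : K) := by
  rw [qinv, HahnSeries.single_pow, HahnSeries.coeff_single_mul]
  simp only [one_pow, one_mul]
  rw [show -(n : ℤ) - n • (-1 : ℤ) = ((0 : ℕ) : ℤ) by simp, coeff_lau_natCast,
    PowerSeries.coeff_zero_eq_constantCoeff]

theorem h4_qExpand_qinv_pow_mul_lau (d : ℕ) [NeZero d] (n : ℕ) (P : PowerSeries ℤ) :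
    qExpand K d (qinv K ^ n * lau K P) = qinv K ^ (d * n) * lau K (ex d P) := by
  rw [map_mul, map_pow, qExpand_qinv, qExpand_lau, ← pow_mul]

end Shift

/-! ## The integral power series -/

/-- `X² · j(X²)`. -/
abbrev J2 : PowerSeries ℤ := ex 2 ModularCurve.jNum

theorem constantCoeff_J2 : constantCoeff J2 = 1 := by
  rw [J2, constantCoeff_ex, ModularCurve.constantCoeff_jNum]

/-- `X³ · U₂(j, j₂)`. -/
def Pu2 : PowerSeries ℤ :=
  ModularCurve.jNum * J2 - C 720 * (X ^ 2 * ModularCurve.jNum) - C 720 * (X * J2)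
    - C 16250625 * X ^ 3

theorem constantCoeff_Pu2 : constantCoeff Pu2 = 1 := by
  simp [Pu2, ModularCurve.constantCoeff_jNum]

section Laurent

variable (K : Type*) [CommRing K]

/-! ## `U₂(j, j₂)` and `U₂(j₂, j₄)` -/

/-- `U₂(j, j₂) = t⁻³ · Pu2`. -/
theorem u2_eq :
    h4u2 (jqModC K) (qExpand K 2 (jqModC K)) = qinv K ^ 3 * lau K Pu2 := by
  have s1 := h4_qinv_pow_mul_X_pow K (n := 3) (k := 1) (by norm_num)
  have s2 := h4_qinv_pow_mul_X_pow K (n := 3) (k := 2) (by norm_num)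
  have s3 := h4_qinv_pow_mul_X_pow K (n := 3) (k := 3) (by norm_num)
  norm_num at s1 s2 s3
  rw [h4u2, Pu2, qExpand_jqModC, jqModC_eq]
  simp only [lau_sub, lau_mul, lau_pow, lau_C]
  push_cast
  generalize lau K ModularCurve.jNum = a at *
  generalize lau K J2 = b at *
  generalize lau K X = x at *
  generalize qinv K = q at *
  linear_combination (720 * a) * s2 + (720 * b) * s1 + (16250625 : LaurentSeries K) * s3

theorem coeff_u2 : (h4u2 (jqModC K) (qExpand K 2 (jqModC K))).coeff (-3) = 1 := by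
  have h := h4_coeff_qinv_pow_mul_lau K 3 Pu2
  rw [← u2_eq, constantCoeff_Pu2] at h
  simpa using h

/-- `U₂(j₂, j₄) = t⁻⁶ · Pu2(t²)`. -/
theorem u2e_eq :
    h4u2 (qExpand K 2 (jqModC K)) (qExpand K 4 (jqModC K))
      = qinv K ^ 6 * lau K (ex 2 Pu2) := by
  have h := congrArg (qExpand K 2) (u2_eq K)
  rw [map_h4u2, h4_qExpand_qinv_pow_mul_lau, qExpand_qExpand] at h
  exact h

theorem coeff_u2e :
    (h4u2 (qExpand K 2 (jqModC K)) (qExpand K 4 (jqModC K))).coeff (-6) = 1 := by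
  have h := h4_coeff_qinv_pow_mul_lau K 6 (ex 2 Pu2)
  rw [← u2e_eq, constantCoeff_ex, constantCoeff_Pu2] at h
  simpa using h

/-! ## `t₂ + 16`, `t₄`, `t₄ + 16` -/

theorem coeff_t2_add_16 : (t2 K + 16).coeff (-1) = 1 := by
  have h := coeff_t2_add_neg_one K 16
  simpa using h

theorem coeff_t4_add_16 : (t4 K + 16).coeff (-1) = 1 := by
  have h := coeff_t4_add_neg_one K 16
  simpa using h

/-! ## `j - c` -/

/-- `j + c = t⁻¹ · (jNum + c X)`. -/
theorem jq4_add_eq (c : ℤ) :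
    jqModC K + (c : LaurentSeries K) = qinv K ^ 1 * lau K (ModularCurve.jNum + C c * X) := by
  rw [pow_one, jqModC_eq, t_add_const]

theorem coeff_jq4_add (c : ℤ) : (jqModC K + (c : LaurentSeries K)).coeff (-1) = 1 := by
  have h := h4_coeff_qinv_pow_mul_lau K 1 (ModularCurve.jNum + C c * X)
  rw [← jq4_add_eq] at h
  simpa [ModularCurve.constantCoeff_jNum] using h

theorem coeff_jq4_sub_1728 : (jqModC K - 1728).coeff (-1) = 1 := by
  have h := coeff_jq4_add K (-1728)
  have e : jqModC K + ((-1728 : ℤ) : LaurentSeries K) = jqModC K - 1728 := by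
    push_cast; ring
  rwa [e] at h

end Laurent

/-! ## The relations `l1`, `l2`, `l3` of `Congr4.t4_congr`, over every FIELD -/

section Field

variable (K : Type*) [Field K]

theorem u2_eq_U2 : h4u2 (jqModC K) (qExpand K 2 (jqModC K)) = U2 K := rfl

theorem w2_eq_W2 : h4w2 (jqModC K) (qExpand K 2 (jqModC K)) = W2 K := rfl

/-- `l1` : `U₂(j, j₂) · t₂ = W₂(j, j₂)`. -/
theorem t2_lin4 :
    h4u2 (jqModC K) (qExpand K 2 (jqModC K)) * t2 K = h4w2 (jqModC K) (qExpand K 2 (jqModC K)) :=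
  t2_lin K

/-- `l2` : `U₂(j₂, j₄) · t₂(t²) = W₂(j₂, j₄)`. -/
theorem t2e_lin4 :
    h4u2 (qExpand K 2 (jqModC K)) (qExpand K 4 (jqModC K)) * qExpand K 2 (t2 K)
      = h4w2 (qExpand K 2 (jqModC K)) (qExpand K 4 (jqModC K)) := by
  have h := congrArg (qExpand K 2) (t2_lin4 K)
  rw [map_mul, map_h4u2, map_h4w2, qExpand_qExpand] at h
  exact h

/-- `l3` : `t₄ · (t₂ + 16) = t₂(t²) - 16 t₂`. -/
theorem t4_lin4 : t4 K * (t2 K + 16) = qExpand K 2 (t2 K) - 16 * t2 K :=
  t4_mul K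

end Field

end Fermat.Agent.S36.H994
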