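import Fermat.Agent.S36.H994.Vinf4
import Fermat.Agent.S36.H994.Chart4
import Fermat.Agent.S36.H878.Congr4
import Fermat.Agent.S36.H878.Transfer4

/-!
# The level-`4` plug for R4 (helper994, S36 cell REG, `q` odd)

`N` a level with `4 ∣ N`, `q` a prime (any natural number `≠ 0` here), `F = F_E(N q q)`,

  `φ = α ∘ α : F_E(N) → F`   (inclusion),        `γ = β ∘ β : F_E(N) → F`   (`f(t) ↦ f(t^{q²})`).

* `t4E_congr_of_hom`   : helper878's `Congr4.t4_congr` for two ring homomorphisms `φ, ψ` out of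
  `F_E(N)`:  `ψ(j_d) ≡ φ(j_d)` (`d ∣ 4`) and Gauss units ⟹ `ψ(t₄) ≡ φ(t₄)`;
* `hres_transfer4_of_hom` : helper878's `Transfer4.hres_transfer4` in the same form;
* `φ4`, `γ4` and their values on `j_d`, `t₄` (`φ4_jE`, `γ4_jE`, `φ4_t4E`, `coe_γ4_t4E`);
* `valuation_φ4_eq_one` : a unit of `V∞(N q)` is a unit of every valuation ring `V` of `F` with
  `V.comap α = V∞(N q)` (in particular of `V_mid` and `V_FF`);
* `reg4_congr`, `reg4_hres` : the two statements at `V` with ALL unit hypotheses discharged: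
  from `γ(j_d) - φ(j_d) ∈ 𝔪_V` (`d = 1, 2, 4`; FROB) get `γ(t₄) - t₄ ∈ 𝔪_V`, and `hres` for
  `(π_j, (j⁴ (j - 1728)³)^k)` gives `hres` for `(π_{t₄}, (t₄² (t₄ + 16)⁵)^k)`.
-/

set_option autoImplicit false
set_option synthInstance.maxHeartbeats 400000
set_option maxHeartbeats 1600000
set_option linter.unusedSectionVars false

noncomputable section

namespace Fermat.Agent.S36.H994

open ModularCurve HahnSeries Fermat.Agent.Lib.Haupt Fermat.Agent.A2.Mod
open Fermat.Agent.A2 Fermat.Agent.S36.H878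

/-! ## Generic form: two ring homomorphisms out of `F_E(N)` -/

section Hom

variable (E : IntermediateField ℚ Qb) (N : ℕ) {L : Type*} [Field L]

/-- **`ψ(t₄) ≡ φ(t₄)` modulo `𝔪_V`** from `ψ(j_d) ≡ φ(j_d)`, `d ∈ {1, 2, 4}`. -/
theorem t4E_congr_of_hom (φ ψ : FE E N →+* L) (V : ValuationSubring L) (h4 : 4 ∣ N)
    (hj : φ (jE E N 1 (one_dvd N)) ∈ V)
    (hj2 : φ (jE E N 2 (two_dvd_of_four_dvd h4)) ∈ V)
    (hj4 : φ (jE E N 4 h4) ∈ V)
    (c1 : ψ (jE E N 1 (one_dvd N)) - φ (jE E N 1 (one_dvd N)) ∈ V.nonunits)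
    (c2 : ψ (jE E N 2 (two_dvd_of_four_dvd h4)) - φ (jE E N 2 (two_dvd_of_four_dvd h4))
      ∈ V.nonunits)
    (c4 : ψ (jE E N 4 h4) - φ (jE E N 4 h4) ∈ V.nonunits)
    (hU : V.valuation
      (φ (h4u2 (jE E N 1 (one_dvd N)) (jE E N 2 (two_dvd_of_four_dvd h4)))) = 1)
    (hUe : V.valuation (φ (h4u2 (jE E N 2 (two_dvd_of_four_dvd h4)) (jE E N 4 h4))) = 1)
    (h16 : V.valuation (φ (t2E E N (two_dvd_of_four_dvd h4) + 16)) = 1) :
    φ (t4E E N h4) ∈ V ∧ ψ (t4E E N h4) ∈ V ∧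
      ψ (t4E E N h4) - φ (t4E E N h4) ∈ V.nonunits := by
  have l1 := congrArg φ (t2E_lin E N (two_dvd_of_four_dvd h4))
  have l2 := congrArg φ (t2eE_lin E N h4)
  have l3 := congrArg φ (t4E_lin E N h4)
  have l1' := congrArg ψ (t2E_lin E N (two_dvd_of_four_dvd h4))
  have l2' := congrArg ψ (t2eE_lin E N h4)
  have l3' := congrArg ψ (t4E_lin E N h4)
  rw [map_mul, map_h4u2, map_h4w2] at l1 l2 l1' l2'
  simp only [map_mul, map_add, map_sub, map_ofNat] at l3 l3'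
  rw [map_h4u2] at hU hUe
  rw [map_add, map_ofNat] at h16
  exact t4_congr V hj hj2 hj4 c1 c2 c4 hU hUe h16 l1 l2 l3 l1' l2' l3'

/-- **Transfer of `hres` from `j` to `t₄`**, for two ring homomorphisms out of `F_E(N)`. -/
theorem hres_transfer4_of_hom (φ ψ : FE E N →+* L) (V : ValuationSubring L) (h4 : 4 ∣ N)
    (U : L) (k : ℕ)
    (hh₁ : V.valuation (φ (t4E E N h4)) = 1)
    (hh₁' : V.valuation (φ (t4E E N h4) + 16) = 1)
    (hj₁ : V.valuation (φ (jE E N 1 (one_dvd N))) = 1)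
    (hj₁' : V.valuation (φ (jE E N 1 (one_dvd N)) - 1728) = 1)
    (hh₂ : ψ (t4E E N h4) ∈ V)
    (hx : ψ (t4E E N h4) - φ (t4E E N h4) ∈ V.nonunits)
    (hres : ((ψ (jE E N 1 (one_dvd N)) - φ (jE E N 1 (one_dvd N))) ^ (6 * k)
        - (φ (jE E N 1 (one_dvd N)) ^ 4 * (φ (jE E N 1 (one_dvd N)) - 1728) ^ 3) ^ k * U)
          * U⁻¹ ∈ V.nonunits) :
    ((ψ (t4E E N h4) - φ (t4E E N h4)) ^ (6 * k)
        - (φ (t4E E N h4) ^ 2 * (φ (t4E E N h4) + 16) ^ 5) ^ k * U) * U⁻¹ ∈ V.nonunits := by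
  have hJ₁ := congrArg φ (jE_mul_t4E E N h4)
  have hJ₂ := congrArg ψ (jE_mul_t4E E N h4)
  simp only [map_mul, map_pow, map_add, map_ofNat] at hJ₁ hJ₂
  exact hres_transfer4 V _ _ _ _ U k hJ₁ hJ₂ hh₁ hh₁' hj₁ hj₁' hh₂ hx hres

end Hom

/-! ## The two maps `F_E(N) → F_E(N q q)` -/

section Maps

variable (E : IntermediateField ℚ Qb) (N q : ℕ) [NeZero N] [NeZero q] [NeZero (N * q)]

/-- The inclusion `φ = α ∘ α : F_E(N) → F_E(N q q)`. -/
def φ4 : FE E N →+* FE E (N * q * q) :=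
  ((αE E (N * q) q : FE E (N * q) →+* FE E (N * q * q))).comp
    (αE E N q : FE E N →+* FE E (N * q))

/-- `γ = β ∘ β : F_E(N) → F_E(N q q)`, `f(t) ↦ f(t^{q²})`. -/
def γ4 : FE E N →+* FE E (N * q * q) :=
  ((βE E (N * q) q : FE E (N * q) →+* FE E (N * q * q))).comp
    (βE E N q : FE E N →+* FE E (N * q))

theorem φ4_apply (f : FE E N) : φ4 E N q f = αE E (N * q) q (αE E N q f) := rfl

theorem γ4_apply (f : FE E N) : γ4 E N q f = βE E (N * q) q (βE E N q f) := rfl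

theorem coe_φ4 (f : FE E N) : ((φ4 E N q f : FE E (N * q * q)) : LaurentSeries E) = f := by
  rw [φ4_apply]
  show ((heckeAlphaBar E (N * q) q (heckeAlphaBar E N q f) : _) : LaurentSeries E) = f
  rw [coe_heckeAlphaBar, coe_heckeAlphaBar]

theorem coe_γ4 (f : FE E N) :
    ((γ4 E N q f : FE E (N * q * q)) : LaurentSeries E)
      = qExpand E q (qExpand E q (f : LaurentSeries E)) := rfl

theorem dvd_mul_mul {d : ℕ} (hd : d ∣ N) : d ∣ N * q * q :=
  Dvd.dvd.mul_right (Dvd.dvd.mul_right hd q) q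

theorem φ4_jE (d : ℕ) [NeZero d] (hd : d ∣ N) :
    φ4 E N q (jE E N d hd) = jE E (N * q * q) d (dvd_mul_mul N q hd) := by
  rw [φ4_apply, αE_jE4, αE_jE4]

theorem φ4_t4E (h4 : 4 ∣ N) :
    φ4 E N q (t4E E N h4) = t4E E (N * q * q) (dvd_mul_mul N q h4) := by
  rw [φ4_apply, αE_t4E, αE_t4E]

theorem coe_γ4_t4E (h4 : 4 ∣ N) :
    ((γ4 E N q (t4E E N h4) : FE E (N * q * q)) : LaurentSeries E)
      = qExpand E (q * q) (t4 E) := by
  rw [coe_γ4, coe_t4E, qExpand_qExpand]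

theorem coe_γ4_jE (d : ℕ) [NeZero d] (hd : d ∣ N) :
    ((γ4 E N q (jE E N d hd) : FE E (N * q * q)) : LaurentSeries E)
      = qExpand E (q * q) (qExpand E d (jqModC E)) := by
  rw [coe_γ4, h4_coe_jE, qExpand_qExpand]

end Maps

/-! ## Units of `V∞(N q)` are units of `V` when `V.comap α = V∞(N q)` -/

section Pull

variable {P : ValuationSubring Qb} {E : IntermediateField ℚ Qb} {N q : ℕ}
  [NeZero N] [NeZero q] [NeZero (N * q)]

theorem valuation_eq_one_of_mem_inv_mem {L : Type*} [Field L] (V : ValuationSubring L) {u : L}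
    (hu0 : u ≠ 0) (hu : u ∈ V) (hui : u⁻¹ ∈ V) : V.valuation u = 1 := by
  refine le_antisymm ((V.valuation_le_one_iff _).2 hu) ?_
  have h1 : V.valuation u⁻¹ ≤ 1 := (V.valuation_le_one_iff _).2 hui
  rw [map_inv₀] at h1
  exact (inv_le_one₀ (by rw [zero_lt_iff]; exact (_root_.map_ne_zero _).2 hu0)).1 h1

theorem mem_α_of_mem {V : ValuationSubring (FE E (N * q * q))}
    {V' : ValuationSubring (FE E (N * q))}
    (hcomap : V.comap (αE E (N * q) q : FE E (N * q) →+* FE E (N * q * q)) = V')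
    {u : FE E (N * q)} (hu : u ∈ V') : αE E (N * q) q u ∈ V := by
  subst hcomap
  have h := (ValuationSubring.mem_comap).1 hu
  rwa [RingHom.coe_coe] at h

theorem inv_mem_α_of_inv_mem {V : ValuationSubring (FE E (N * q * q))}
    {V' : ValuationSubring (FE E (N * q))}
    (hcomap : V.comap (αE E (N * q) q : FE E (N * q) →+* FE E (N * q * q)) = V')
    {u : FE E (N * q)} (hu : u⁻¹ ∈ V') : (αE E (N * q) q u)⁻¹ ∈ V := by
  have h := mem_α_of_mem hcomap hu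
  rwa [map_inv₀] at h

/-- A unit of `V' = V.comap α` maps to a unit of `V`. -/
theorem valuation_α_eq_one {V : ValuationSubring (FE E (N * q * q))}
    {V' : ValuationSubring (FE E (N * q))}
    (hcomap : V.comap (αE E (N * q) q : FE E (N * q) →+* FE E (N * q * q)) = V')
    {u : FE E (N * q)} (hu0 : u ≠ 0) (hu : u ∈ V' ∧ u⁻¹ ∈ V') :
    V.valuation (αE E (N * q) q u) = 1 :=
  valuation_eq_one_of_mem_inv_mem V ((_root_.map_ne_zero (αE E (N * q) q)).2 hu0)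
    (mem_α_of_mem hcomap hu.1) (inv_mem_α_of_inv_mem hcomap hu.2)

/-- An element with an integral expansion with a coefficient `1` is not zero. -/
theorem ne_zero_of_int4 {M : ℕ} {f : FE E M} {g : LaurentSeries ℤ} {k : ℤ}
    (hfg : (f : LaurentSeries E) = castE4 E g) (hk : g.coeff k = 1) : f ≠ 0 := by
  rintro rfl
  rw [ZeroMemClass.coe_zero, castE4_eq] at hfg
  have h0 := congrArg (fun x : LaurentSeries E => x.coeff k) hfg
  simp only [HahnSeries.coeff_zero, coeffMap_coeff, hk, map_one] at h0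
  exact zero_ne_one h0

/-- Gauss units (integral expansion with a coefficient `1`) of level `N q` are units of `V`. -/
theorem valuation_α_eq_one_of_int {V : ValuationSubring (FE E (N * q * q))}
    {V' : ValuationSubring (FE E (N * q))} (hV' : IsVinf P E (N * q) V')
    (hcomap : V.comap (αE E (N * q) q : FE E (N * q) →+* FE E (N * q * q)) = V')
    {f : FE E (N * q)} {g : LaurentSeries ℤ} {k : ℤ}
    (hfg : (f : LaurentSeries E) = castE4 E g) (hk : g.coeff k = 1) :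
    V.valuation (αE E (N * q) q f) = 1 :=
  valuation_α_eq_one hcomap (ne_zero_of_int4 hfg hk) (unit_of_int4 hV' hfg hk)

end Pull

/-! ## The concrete statements at `V` with `V.comap α = V∞(N q)` -/

section Concrete

variable {P : ValuationSubring Qb} {E : IntermediateField ℚ Qb} {N q : ℕ}
  [NeZero N] [NeZero q] [NeZero (N * q)]
  {V : ValuationSubring (FE E (N * q * q))} {V' : ValuationSubring (FE E (N * q))}

theorem four_dvd_mul {N : ℕ} (q : ℕ) (h4 : 4 ∣ N) : 4 ∣ N * q := Dvd.dvd.mul_right h4 q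

/-- `φ(j_d) ∈ V`. -/
theorem φ4_jE_mem (hV' : IsVinf P E (N * q) V')
    (hcomap : V.comap (αE E (N * q) q : FE E (N * q) →+* FE E (N * q * q)) = V')
    (d : ℕ) [NeZero d] (hd : d ∣ N) : φ4 E N q (jE E N d hd) ∈ V := by
  rw [φ4_apply, αE_jE4]
  exact mem_α_of_mem hcomap (jE_mem4 P E (N * q) hV' d _)

/-- `v(φ t₄) = 1`. -/
theorem valuation_φ4_t4E (hV' : IsVinf P E (N * q) V')
    (hcomap : V.comap (αE E (N * q) q : FE E (N * q) →+* FE E (N * q * q)) = V')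
    (h4 : 4 ∣ N) : V.valuation (φ4 E N q (t4E E N h4)) = 1 := by
  rw [φ4_apply, αE_t4E]
  exact valuation_α_eq_one_of_int hV' hcomap (g := t4 ℤ) (k := -1)
    (by rw [coe_t4E, castE4_t4]) (coeff_t4_neg_one ℤ)

/-- `v(φ t₄ + 16) = 1`. -/
theorem valuation_φ4_t4E_add (hV' : IsVinf P E (N * q) V')
    (hcomap : V.comap (αE E (N * q) q : FE E (N * q) →+* FE E (N * q * q)) = V')
    (h4 : 4 ∣ N) : V.valuation (φ4 E N q (t4E E N h4) + 16) = 1 := by
  have e : φ4 E N q (t4E E N h4) + 16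
      = αE E (N * q) q (t4E E (N * q) (four_dvd_mul q h4) + 16) := by
    rw [φ4_apply, αE_t4E, map_add, map_ofNat]
  rw [e]
  refine valuation_α_eq_one_of_int hV' hcomap (g := t4 ℤ + 16) (k := -1) ?_ (coeff_t4_add_16 ℤ)
  rw [map_add, map_ofNat, castE4_t4]
  rfl

/-- `v(φ (t₂ + 16)) = 1`. -/
theorem valuation_φ4_t2E_add (hV' : IsVinf P E (N * q) V')
    (hcomap : V.comap (αE E (N * q) q : FE E (N * q) →+* FE E (N * q * q)) = V')
    (h4 : 4 ∣ N) :
    V.valuation (φ4 E N q (t2E E N (two_dvd_of_four_dvd h4) + 16)) = 1 := by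
  have e : φ4 E N q (t2E E N (two_dvd_of_four_dvd h4) + 16)
      = αE E (N * q) q (t2E E (N * q) (two_dvd_of_four_dvd (four_dvd_mul q h4)) + 16) := by
    rw [φ4_apply, map_add, map_ofNat, αE_t2E, map_add, map_ofNat]
  rw [e]
  refine valuation_α_eq_one_of_int hV' hcomap (g := t2 ℤ + 16) (k := -1) ?_ (coeff_t2_add_16 ℤ)
  rw [map_add, map_ofNat, castE4_t2]
  rfl

/-- `v(φ j) = 1`. -/
theorem valuation_φ4_jE_one (hV' : IsVinf P E (N * q) V')
    (hcomap : V.comap (αE E (N * q) q : FE E (N * q) →+* FE E (N * q * q)) = V') :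
    V.valuation (φ4 E N q (jE E N 1 (one_dvd N))) = 1 := by
  rw [φ4_apply, αE_jE4]
  exact valuation_α_eq_one_of_int hV' hcomap (g := jqModC ℤ) (k := -1)
    (by rw [h4_coe_jE, qExpand_one_apply, castE4_jq]) (coeff_jqModC_neg_one ℤ)

/-- `v(φ j - 1728) = 1`. -/
theorem valuation_φ4_jE_sub (hV' : IsVinf P E (N * q) V')
    (hcomap : V.comap (αE E (N * q) q : FE E (N * q) →+* FE E (N * q * q)) = V') :
    V.valuation (φ4 E N q (jE E N 1 (one_dvd N)) - 1728) = 1 := by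
  have e : φ4 E N q (jE E N 1 (one_dvd N)) - 1728
      = αE E (N * q) q (jE E (N * q) 1 (one_dvd _) - 1728) := by
    rw [φ4_apply, αE_jE4, map_sub, map_ofNat]
  rw [e]
  refine valuation_α_eq_one_of_int hV' hcomap (g := jqModC ℤ - 1728) (k := -1) ?_
    (coeff_jq4_sub_1728 ℤ)
  rw [map_sub, map_ofNat, castE4_jq, ← h4_coe_jE_one E (N * q)]
  rfl

/-- `v(φ U₂(j, j₂)) = 1`. -/
theorem valuation_φ4_u2 (hV' : IsVinf P E (N * q) V')
    (hcomap : V.comap (αE E (N * q) q : FE E (N * q) →+* FE E (N * q * q)) = V')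
    (h4 : 4 ∣ N) :
    V.valuation (φ4 E N q
      (h4u2 (jE E N 1 (one_dvd N)) (jE E N 2 (two_dvd_of_four_dvd h4)))) = 1 := by
  have e : φ4 E N q (h4u2 (jE E N 1 (one_dvd N)) (jE E N 2 (two_dvd_of_four_dvd h4)))
      = αE E (N * q) q (h4u2 (jE E (N * q) 1 (one_dvd _))
          (jE E (N * q) 2 (two_dvd_of_four_dvd (four_dvd_mul q h4)))) := by
    rw [map_h4u2, φ4_jE, φ4_jE]
    have h := map_h4u2 (αE E (N * q) q : FE E (N * q) →+* FE E (N * q * q))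
      (jE E (N * q) 1 (one_dvd _)) (jE E (N * q) 2 (two_dvd_of_four_dvd (four_dvd_mul q h4)))
    rw [RingHom.coe_coe] at h
    rw [h, αE_jE4, αE_jE4]
  rw [e]
  refine valuation_α_eq_one_of_int hV' hcomap
    (g := h4u2 (jqModC ℤ) (qExpand ℤ 2 (jqModC ℤ))) (k := -3) ?_ (coeff_u2 ℤ)
  rw [map_h4u2, castE4_qExpand, castE4_jq,
    ← h4_coe_jE E (N * q) 2 (two_dvd_of_four_dvd (four_dvd_mul q h4)),
    ← h4_coe_jE_one E (N * q)]
  exact (map_h4u2 (FE E (N * q)).val.toRingHom _ _)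

/-- `v(φ U₂(j₂, j₄)) = 1`. -/
theorem valuation_φ4_u2e (hV' : IsVinf P E (N * q) V')
    (hcomap : V.comap (αE E (N * q) q : FE E (N * q) →+* FE E (N * q * q)) = V')
    (h4 : 4 ∣ N) :
    V.valuation (φ4 E N q
      (h4u2 (jE E N 2 (two_dvd_of_four_dvd h4)) (jE E N 4 h4))) = 1 := by
  have e : φ4 E N q (h4u2 (jE E N 2 (two_dvd_of_four_dvd h4)) (jE E N 4 h4))
      = αE E (N * q) q (h4u2 (jE E (N * q) 2 (two_dvd_of_four_dvd (four_dvd_mul q h4)))
          (jE E (N * q) 4 (four_dvd_mul q h4))) := by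
    rw [map_h4u2, φ4_jE, φ4_jE]
    have h := map_h4u2 (αE E (N * q) q : FE E (N * q) →+* FE E (N * q * q))
      (jE E (N * q) 2 (two_dvd_of_four_dvd (four_dvd_mul q h4)))
      (jE E (N * q) 4 (four_dvd_mul q h4))
    rw [RingHom.coe_coe] at h
    rw [h, αE_jE4, αE_jE4]
  rw [e]
  refine valuation_α_eq_one_of_int hV' hcomap
    (g := h4u2 (qExpand ℤ 2 (jqModC ℤ)) (qExpand ℤ 4 (jqModC ℤ))) (k := -6) ?_ (coeff_u2e ℤ)
  rw [map_h4u2, castE4_qExpand, castE4_qExpand, castE4_jq,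
    ← h4_coe_jE E (N * q) 2 (two_dvd_of_four_dvd (four_dvd_mul q h4)),
    ← h4_coe_jE E (N * q) 4 (four_dvd_mul q h4)]
  exact (map_h4u2 (FE E (N * q)).val.toRingHom _ _)

/-- **R4, congruence for `t₄`** (all unit hypotheses discharged): if `γ(j_d) ≡ φ(j_d)` modulo
`𝔪_V` for `d = 1, 2, 4` (FROB), then `φ t₄, γ t₄ ∈ V` and `γ(t₄) ≡ φ(t₄)` modulo `𝔪_V`. -/
theorem reg4_congr (hV' : IsVinf P E (N * q) V')
    (hcomap : V.comap (αE E (N * q) q : FE E (N * q) →+* FE E (N * q * q)) = V')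
    (h4 : 4 ∣ N)
    (c1 : γ4 E N q (jE E N 1 (one_dvd N)) - φ4 E N q (jE E N 1 (one_dvd N)) ∈ V.nonunits)
    (c2 : γ4 E N q (jE E N 2 (two_dvd_of_four_dvd h4))
      - φ4 E N q (jE E N 2 (two_dvd_of_four_dvd h4)) ∈ V.nonunits)
    (c4 : γ4 E N q (jE E N 4 h4) - φ4 E N q (jE E N 4 h4) ∈ V.nonunits) :
    φ4 E N q (t4E E N h4) ∈ V ∧ γ4 E N q (t4E E N h4) ∈ V ∧
      γ4 E N q (t4E E N h4) - φ4 E N q (t4E E N h4) ∈ V.nonunits :=
  t4E_congr_of_hom E N (φ4 E N q) (γ4 E N q) V h4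
    (φ4_jE_mem hV' hcomap 1 _) (φ4_jE_mem hV' hcomap 2 _) (φ4_jE_mem hV' hcomap 4 _)
    c1 c2 c4 (valuation_φ4_u2 hV' hcomap h4) (valuation_φ4_u2e hV' hcomap h4)
    (valuation_φ4_t2E_add hV' hcomap h4)

/-- **R4, transfer of `hres` from `j` to `t₄`** (all unit hypotheses discharged):
`x_j = γ j - φ j`, `g_j = (j⁴ (j - 1728)³)^k`  ⟹  `x = γ t₄ - φ t₄`, `g = (t₄² (t₄ + 16)⁵)^k`. -/
theorem reg4_hres (hV' : IsVinf P E (N * q) V')
    (hcomap : V.comap (αE E (N * q) q : FE E (N * q) →+* FE E (N * q * q)) = V')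
    (h4 : 4 ∣ N)
    (c1 : γ4 E N q (jE E N 1 (one_dvd N)) - φ4 E N q (jE E N 1 (one_dvd N)) ∈ V.nonunits)
    (c2 : γ4 E N q (jE E N 2 (two_dvd_of_four_dvd h4))
      - φ4 E N q (jE E N 2 (two_dvd_of_four_dvd h4)) ∈ V.nonunits)
    (c4 : γ4 E N q (jE E N 4 h4) - φ4 E N q (jE E N 4 h4) ∈ V.nonunits)
    (U : FE E (N * q * q)) (k : ℕ)
    (hres : ((γ4 E N q (jE E N 1 (one_dvd N)) - φ4 E N q (jE E N 1 (one_dvd N))) ^ (6 * k)
        - (φ4 E N q (jE E N 1 (one_dvd N)) ^ 4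
            * (φ4 E N q (jE E N 1 (one_dvd N)) - 1728) ^ 3) ^ k * U) * U⁻¹ ∈ V.nonunits) :
    ((γ4 E N q (t4E E N h4) - φ4 E N q (t4E E N h4)) ^ (6 * k)
        - (φ4 E N q (t4E E N h4) ^ 2 * (φ4 E N q (t4E E N h4) + 16) ^ 5) ^ k * U) * U⁻¹
      ∈ V.nonunits := by
  obtain ⟨-, h2, hx⟩ := reg4_congr hV' hcomap h4 c1 c2 c4
  exact hres_transfer4_of_hom E N (φ4 E N q) (γ4 E N q) V h4 U k
    (valuation_φ4_t4E hV' hcomap h4) (valuation_φ4_t4E_add hV' hcomap h4)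
    (valuation_φ4_jE_one hV' hcomap) (valuation_φ4_jE_sub hV' hcomap) h2 hx hres

end Concrete

end Fermat.Agent.S36.H994
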