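import Fermat.Agent.S36.H994.Gauss4
import Fermat.Agent.A2.Mod.Spec

/-!
# The level-`4` Hauptmodul in the function fields `F_{N,E}` (helper994, S36 cell REG, `q` odd)

Mirror of helper890's `T9E.lean`.  `A2.Mod` vocabulary: `FE E N = E(j_d : d ∣ N) ⊆ E((t))`.
For `4 ∣ N`:

* `t2E`, `t2eE`, `t4E : FE E N` — `t₂`, `t₂(t²)`, `t₄`, with INTEGRAL `t`-expansions
  (`coe_t4E_int` …: `= coeffEmb E (castQ g)`, `g : LaurentSeries ℤ`, the shape of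
  `A2.Mod.H553.mem_of_int` / `inv_mem_of_int`);
* the relations in `FE E N`: `jE_mul_t4E` (`j t₄⁴ (t₄ + 16) = (t₄² + 256 t₄ + 4096)³`),
  `jE_sub_1728_mul_t4E`, `t4E_sq`, `t2eE_eq`, and `l1`, `l2`, `l3` of helper878's
  `Congr4.t4_congr` (`t2E_lin`, `t2eE_lin`, `t4E_lin`);
* `αE_t4E`, `coe_βE_t4E` : the images under the two degeneracy maps.
-/

set_option autoImplicit false
set_option synthInstance.maxHeartbeats 400000
set_option maxHeartbeats 1600000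
set_option linter.unusedSectionVars false

noncomputable section

namespace Fermat.Agent.S36.H994

open ModularCurve HahnSeries Fermat.Agent.Lib.Haupt Fermat.Agent.A2.Mod
open Fermat.Agent.A2 Fermat.Agent.S36.H878

variable (E : IntermediateField ℚ Qb) (N : ℕ)

/-! ## Membership -/

theorem t2_mem_laurentBaseChange4 (L : Type*) [Field L] [Algebra ℚ L] (M : ℕ) (h2 : 2 ∣ M) :
    t2 L ∈ laurentBaseChange L (modularFunctionFieldFull M) := by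
  have h := coeffEmb_mem_laurentBaseChange L (t2_mem_full M h2)
  rwa [coeffEmb, coeffMap_t2] at h

theorem qExpand_t2_mem_laurentBaseChange4 (L : Type*) [Field L] [Algebra ℚ L] (M : ℕ)
    (h4 : 4 ∣ M) :
    qExpand L 2 (t2 L) ∈ laurentBaseChange L (modularFunctionFieldFull M) := by
  have h0 : qExpand ℚ 2 (t2 ℚ) ∈ modularFunctionFieldFull M := qExpand_t2_mem_fullC ℚ M h4
  have h := coeffEmb_mem_laurentBaseChange L h0
  rwa [coeffEmb, coeffMap_qExpand, coeffMap_t2] at h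

/-- `t₂ ∈ F_{N,E}`, `2 ∣ N`. -/
def t2E (h2 : 2 ∣ N) : FE E N := ⟨t2 E, t2_mem_laurentBaseChange4 E N h2⟩

/-- `t₂(t²) ∈ F_{N,E}`, `4 ∣ N`. -/
def t2eE (h4 : 4 ∣ N) : FE E N := ⟨qExpand E 2 (t2 E), qExpand_t2_mem_laurentBaseChange4 E N h4⟩

/-- `t₄ ∈ F_{N,E}`, `4 ∣ N`. -/
def t4E (h4 : 4 ∣ N) : FE E N := ⟨t4 E, t4_mem_laurentBaseChange E N h4⟩

theorem coe_t2E (h2 : 2 ∣ N) : ((t2E E N h2 : FE E N) : LaurentSeries E) = t2 E := rfl

theorem coe_t2eE (h4 : 4 ∣ N) :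
    ((t2eE E N h4 : FE E N) : LaurentSeries E) = qExpand E 2 (t2 E) := rfl

theorem coe_t4E (h4 : 4 ∣ N) : ((t4E E N h4 : FE E N) : LaurentSeries E) = t4 E := rfl

theorem two_dvd_of_four_dvd {N : ℕ} (h4 : 4 ∣ N) : 2 ∣ N :=
  Dvd.dvd.trans (by norm_num) h4

/-! ## Integral expansions -/

theorem coeffEmb_castQ_eq4 (g : LaurentSeries ℤ) :
    coeffEmb E (H708.castQ g) = coeffMap (Int.castRingHom E) g := by
  rw [coeffEmb, H708.castQ, coeffMap_coeffMap]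
  exact coeffMap_congr (RingHom.ext_int _ _) g

theorem coe_t2E_int (h2 : 2 ∣ N) :
    ((t2E E N h2 : FE E N) : LaurentSeries E) = coeffEmb E (H708.castQ (t2 ℤ)) := by
  rw [coe_t2E, coeffEmb_castQ_eq4, coeffMap_t2]

theorem coe_t2eE_int (h4 : 4 ∣ N) :
    ((t2eE E N h4 : FE E N) : LaurentSeries E)
      = coeffEmb E (H708.castQ (qExpand ℤ 2 (t2 ℤ))) := by
  rw [coe_t2eE, coeffEmb_castQ_eq4, coeffMap_qExpand, coeffMap_t2]

theorem coe_t4E_int (h4 : 4 ∣ N) :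
    ((t4E E N h4 : FE E N) : LaurentSeries E) = coeffEmb E (H708.castQ (t4 ℤ)) := by
  rw [coe_t4E, coeffEmb_castQ_eq4, coeffMap_t4]

theorem h4_coe_jE (d : ℕ) [NeZero d] (hd : d ∣ N) :
    ((jE E N d hd : FE E N) : LaurentSeries E) = qExpand E d (jqModC E) := by
  show coeffEmb E (qExpand ℚ d jq) = _
  rw [coeffEmb, coeffMap_qExpand, ← jqModC_rat, coeffMap_jqModC]

theorem h4_coe_jE_one :
    ((jE E N 1 (one_dvd N) : FE E N) : LaurentSeries E) = jqModC E := by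
  rw [h4_coe_jE, qExpand_one_apply]

/-! ## Relations in `F_{N,E}` -/

/-- `j · t₄⁴ (t₄ + 16) = (t₄² + 256 t₄ + 4096)³` in `F_{N,E}`. -/
theorem jE_mul_t4E (h4 : 4 ∣ N) :
    jE E N 1 (one_dvd N) * (t4E E N h4 ^ 4 * (t4E E N h4 + 16))
      = (t4E E N h4 ^ 2 + 256 * t4E E N h4 + 4096) ^ 3 := by
  apply Subtype.ext
  have h := jq_mul_t4 E
  rw [← h4_coe_jE_one E N, ← coe_t4E E N h4] at h
  exact h

/-- `(j - 1728) · t₄⁴ (t₄ + 16) = (t₄ + 32)² (t₄² - 512 t₄ - 8192)²` in `F_{N,E}`. -/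
theorem jE_sub_1728_mul_t4E (h4 : 4 ∣ N) :
    (jE E N 1 (one_dvd N) - 1728) * (t4E E N h4 ^ 4 * (t4E E N h4 + 16))
      = (t4E E N h4 + 32) ^ 2 * (t4E E N h4 ^ 2 - 512 * t4E E N h4 - 8192) ^ 2 := by
  apply Subtype.ext
  have h := jq_sub_1728_mul_t4 E
  rw [← h4_coe_jE_one E N, ← coe_t4E E N h4] at h
  exact h

/-- `t₄² = t₂ (t₄ + 16)` in `F_{N,E}`. -/
theorem t4E_sq (h4 : 4 ∣ N) :
    t4E E N h4 ^ 2 = t2E E N (two_dvd_of_four_dvd h4) * (t4E E N h4 + 16) :=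
  Subtype.ext (t4_sq E)

/-- `t₂(t²) = t₄ (t₄ + 16)` in `F_{N,E}`. -/
theorem t2eE_eq (h4 : 4 ∣ N) :
    t2eE E N h4 = t4E E N h4 * (t4E E N h4 + 16) :=
  Subtype.ext (t2e_eq E)

/-- `l3` : `t₄ · (t₂ + 16) = t₂(t²) - 16 t₂` in `F_{N,E}`. -/
theorem t4E_lin (h4 : 4 ∣ N) :
    t4E E N h4 * (t2E E N (two_dvd_of_four_dvd h4) + 16)
      = t2eE E N h4 - 16 * t2E E N (two_dvd_of_four_dvd h4) :=
  Subtype.ext (t4_mul E)

/-- `l1` : `U₂(j, j₂) · t₂ = W₂(j, j₂)` in `F_{N,E}`. -/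
theorem t2E_lin (h2 : 2 ∣ N) :
    h4u2 (jE E N 1 (one_dvd N)) (jE E N 2 h2) * t2E E N h2
      = h4w2 (jE E N 1 (one_dvd N)) (jE E N 2 h2) := by
  apply Subtype.ext
  have h := t2_lin4 E
  rw [← h4_coe_jE E N 2 h2, ← h4_coe_jE_one E N, ← coe_t2E E N h2] at h
  exact h

/-- `l2` : `U₂(j₂, j₄) · t₂(t²) = W₂(j₂, j₄)` in `F_{N,E}`. -/
theorem t2eE_lin (h4 : 4 ∣ N) :
    h4u2 (jE E N 2 (two_dvd_of_four_dvd h4)) (jE E N 4 h4) * t2eE E N h4
      = h4w2 (jE E N 2 (two_dvd_of_four_dvd h4)) (jE E N 4 h4) := by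
  apply Subtype.ext
  have h := t2e_lin4 E
  rw [← h4_coe_jE E N 2 (two_dvd_of_four_dvd h4), ← h4_coe_jE E N 4 h4,
    ← coe_t2eE E N h4] at h
  exact h

/-! ## The degeneracy maps -/

section Deg

variable [NeZero N] (q : ℕ) [NeZero q]

theorem αE_t4E (h4 : 4 ∣ N) :
    αE E N q (t4E E N h4) = t4E E (N * q) (Dvd.dvd.mul_right h4 q) :=
  Subtype.ext (coe_heckeAlphaBar N q _)

theorem αE_t2E (h2 : 2 ∣ N) :
    αE E N q (t2E E N h2) = t2E E (N * q) (Dvd.dvd.mul_right h2 q) :=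
  Subtype.ext (coe_heckeAlphaBar N q _)

theorem αE_t2eE (h4 : 4 ∣ N) :
    αE E N q (t2eE E N h4) = t2eE E (N * q) (Dvd.dvd.mul_right h4 q) :=
  Subtype.ext (coe_heckeAlphaBar N q _)

theorem coe_βE_t4E (h4 : 4 ∣ N) :
    ((βE E N q (t4E E N h4) : FE E (N * q)) : LaurentSeries E) = qExpand E q (t4 E) := rfl

theorem coe_βE_t4E_int (h4 : 4 ∣ N) :
    ((βE E N q (t4E E N h4) : FE E (N * q)) : LaurentSeries E)
      = coeffEmb E (H708.castQ (qExpand ℤ q (t4 ℤ))) := by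
  rw [coe_βE_t4E, coeffEmb_castQ_eq4, coeffMap_qExpand, coeffMap_t4]

theorem coe_βE_t2E (h2 : 2 ∣ N) :
    ((βE E N q (t2E E N h2) : FE E (N * q)) : LaurentSeries E) = qExpand E q (t2 E) := rfl

theorem coe_βE_t2eE (h4 : 4 ∣ N) :
    ((βE E N q (t2eE E N h4) : FE E (N * q)) : LaurentSeries E)
      = qExpand E q (qExpand E 2 (t2 E)) := rfl

theorem αE_jE4 (d : ℕ) [NeZero d] (hd : d ∣ N) :
    αE E N q (jE E N d hd) = jE E (N * q) d (Dvd.dvd.mul_right hd q) :=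
  Subtype.ext (coe_heckeAlphaBar N q _)

end Deg

end Fermat.Agent.S36.H994
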