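import Fermat.Agent.S36.H994.T4E
import Fermat.Agent.A2.Mod.H553.Vinf

/-!
# The level-`4` Gauss units are units of `V∞` (helper994, S36 cell REG, `q` odd)

Mirror of helper890's `Vinf9.lean`.  `V` the Gauss valuation ring of `F_{N,E}`
(`A2.Mod.IsVinf P E N V`), `4 ∣ N`, ANY residue characteristic.  The following elements of
`F_{N,E}` and their inverses lie in `V`:

  `t₄`, `t₄ + 16`, `t₂ + 16`, `U₂(j, j₂)`, `U₂(j₂, j₄)`, `j`, `j - 1728`,

and `t₂`, `t₂(t²)` lie in `V`.  (Units of `V_mid`, `V_FF` at level `N q` follow by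
`V.comap α = V∞'`: `valuation_α_eq_one`.)
-/

set_option autoImplicit false
set_option synthInstance.maxHeartbeats 400000
set_option maxHeartbeats 1600000
set_option linter.unusedSectionVars false

noncomputable section

namespace Fermat.Agent.S36.H994

open ModularCurve HahnSeries Fermat.Agent.Lib.Haupt Fermat.Agent.A2.Mod
open Fermat.Agent.A2 Fermat.Agent.S36.H878

variable (P : ValuationSubring Qb) (E : IntermediateField ℚ Qb) (N : ℕ)

/-- The ring homomorphism `ℤ((t)) → E((t))`. -/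
def castE4 : LaurentSeries ℤ →+* LaurentSeries E := (coeffEmb E).comp H708.castQ

theorem castE4_apply (g : LaurentSeries ℤ) : castE4 E g = coeffEmb E (H708.castQ g) := rfl

theorem castE4_eq (g : LaurentSeries ℤ) : castE4 E g = coeffMap (Int.castRingHom E) g :=
  coeffEmb_castQ_eq4 E g

theorem castE4_t4 : castE4 E (t4 ℤ) = t4 E := by rw [castE4_eq, coeffMap_t4]

theorem castE4_t2 : castE4 E (t2 ℤ) = t2 E := by rw [castE4_eq, coeffMap_t2]

theorem castE4_jq : castE4 E (jqModC ℤ) = jqModC E := by rw [castE4_eq, coeffMap_jqModC]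

theorem castE4_qExpand (d : ℕ) [NeZero d] (g : LaurentSeries ℤ) :
    castE4 E (qExpand ℤ d g) = qExpand E d (castE4 E g) := by
  rw [castE4_eq, castE4_eq, coeffMap_qExpand]

variable {P E N}

/-- An element of `F_{N,E}` whose expansion is an integral series with a coefficient `1` is a
unit of `V∞`. -/
theorem unit_of_int4 {V : ValuationSubring (FE E N)} (hV : IsVinf P E N V) {f : FE E N}
    {g : LaurentSeries ℤ} {k : ℤ} (hfg : (f : LaurentSeries E) = castE4 E g)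
    (hk : g.coeff k = 1) : f ∈ V ∧ f⁻¹ ∈ V :=
  ⟨H553.mem_of_int hV hfg, H553.inv_mem_of_int hV hfg (Or.inl hk)⟩

variable (P E N)

section Level4

variable {V : ValuationSubring (FE E N)} (hV : IsVinf P E N V) (h4 : 4 ∣ N)

include hV

theorem t4E_unit : t4E E N h4 ∈ V ∧ (t4E E N h4)⁻¹ ∈ V :=
  unit_of_int4 hV (g := t4 ℤ) (k := -1) (by rw [coe_t4E, castE4_t4]) (coeff_t4_neg_one ℤ)

theorem t4E_add_unit : t4E E N h4 + 16 ∈ V ∧ (t4E E N h4 + 16)⁻¹ ∈ V := by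
  refine unit_of_int4 hV (g := t4 ℤ + 16) (k := -1) ?_ (coeff_t4_add_16 ℤ)
  rw [map_add, map_ofNat, castE4_t4]
  rfl

theorem t2E_mem : t2E E N (two_dvd_of_four_dvd h4) ∈ V :=
  H553.mem_of_int hV (g := t2 ℤ) (by rw [coe_t2E, ← castE4_apply, castE4_t2])

theorem t2eE_mem : t2eE E N h4 ∈ V :=
  H553.mem_of_int hV (g := qExpand ℤ 2 (t2 ℤ))
    (by rw [coe_t2eE, ← castE4_apply, castE4_qExpand, castE4_t2])

theorem t2E_add_unit :
    t2E E N (two_dvd_of_four_dvd h4) + 16 ∈ V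
      ∧ (t2E E N (two_dvd_of_four_dvd h4) + 16)⁻¹ ∈ V := by
  refine unit_of_int4 hV (g := t2 ℤ + 16) (k := -1) ?_ (coeff_t2_add_16 ℤ)
  rw [map_add, map_ofNat, castE4_t2]
  rfl

theorem u2E_unit :
    h4u2 (jE E N 1 (one_dvd N)) (jE E N 2 (two_dvd_of_four_dvd h4)) ∈ V
      ∧ (h4u2 (jE E N 1 (one_dvd N)) (jE E N 2 (two_dvd_of_four_dvd h4)))⁻¹ ∈ V := by
  refine unit_of_int4 hV (g := h4u2 (jqModC ℤ) (qExpand ℤ 2 (jqModC ℤ))) (k := -3) ?_
    (coeff_u2 ℤ)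
  rw [map_h4u2, castE4_qExpand, castE4_jq, ← h4_coe_jE E N 2 (two_dvd_of_four_dvd h4),
    ← h4_coe_jE_one E N]
  exact (map_h4u2 (FE E N).val.toRingHom _ _)

theorem u2eE_unit :
    h4u2 (jE E N 2 (two_dvd_of_four_dvd h4)) (jE E N 4 h4) ∈ V
      ∧ (h4u2 (jE E N 2 (two_dvd_of_four_dvd h4)) (jE E N 4 h4))⁻¹ ∈ V := by
  refine unit_of_int4 hV (g := h4u2 (qExpand ℤ 2 (jqModC ℤ)) (qExpand ℤ 4 (jqModC ℤ)))
    (k := -6) ?_ (coeff_u2e ℤ)
  rw [map_h4u2, castE4_qExpand, castE4_qExpand, castE4_jq,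
    ← h4_coe_jE E N 2 (two_dvd_of_four_dvd h4), ← h4_coe_jE E N 4 h4]
  exact (map_h4u2 (FE E N).val.toRingHom _ _)

end Level4

section AnyLevel

variable {V : ValuationSubring (FE E N)} (hV : IsVinf P E N V)

include hV

theorem jE_one_unit4 : jE E N 1 (one_dvd N) ∈ V ∧ (jE E N 1 (one_dvd N))⁻¹ ∈ V :=
  unit_of_int4 hV (g := jqModC ℤ) (k := -1) (by rw [h4_coe_jE_one, castE4_jq])
    (coeff_jqModC_neg_one ℤ)

theorem jE_sub_1728_unit4 :
    jE E N 1 (one_dvd N) - 1728 ∈ V ∧ (jE E N 1 (one_dvd N) - 1728)⁻¹ ∈ V := by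
  refine unit_of_int4 hV (g := jqModC ℤ - 1728) (k := -1) ?_ (coeff_jq4_sub_1728 ℤ)
  rw [map_sub, map_ofNat, castE4_jq, ← h4_coe_jE_one E N]
  rfl

/-- `j_d ∈ V∞` for every `d ∣ N`. -/
theorem jE_mem4 (d : ℕ) [NeZero d] (hd : d ∣ N) : jE E N d hd ∈ V :=
  H553.mem_of_int hV (g := qExpand ℤ d (jqModC ℤ))
    (by rw [h4_coe_jE, ← castE4_apply, castE4_qExpand, castE4_jq])

end AnyLevel

end Fermat.Agent.S36.H994
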